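/-
Fermat/Agent/T1/ModelFacts85/PiGood.lean (helper85) -- programme T1A (S19), brick G2-X MODEL-FACTS,
second seat: items T4-T6 (`Red68.PiGood` for the hub rings) and T7 (integrality over `W[t]`
restated on the subtypes) of helper75's list.

* `prime_pi0`, `prime_pi1` : `π` is a prime element of the charts `↥B0`, `↥B1` of a
  `RED.CORE.CoreIface24.TwoChartModel`;
* `pi01_ne_zero`, `not_isUnit_pi01` : `π` is nonzero and not a unit in `↥(B0 ⊔ B1)`;
* `piGood_hub` : `PiGood c π` for any two-chart structure on `(↥B0, ↥B1, ↥(B0 ⊔ B1))`;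
* `piGood_of_equiv` : `PiGood (c0.baseChange O) π'` from a model over `O` and `O`-algebra
  isomorphisms `O ⊗[W] B_j ≃ₐ[O] ↥B_j'`;
* `hint0`, `hint1` : every element of `↥B0` is integral over `Algebra.adjoin R {⟨t, _⟩}`
  (subalgebra of `↥B0`), same for `↥B1` and `⟨t⁻¹, _⟩`.
-/
import Mathlib
import Fermat.Agent.RED.CORE.CoreIface24
import Fermat.Agent.T1.Centres94.OfModel
import Fermat.Agent.T1.ModelCoh30.Basic
import Fermat.Agent.T1.Red68.ExtInjModel

set_option autoImplicit false
set_option linter.unusedSectionVars false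

open TensorProduct

namespace Fermat.Agent.T1.ModelFacts85

open Fermat.Agent.RED.CORE.CoreIface24 Fermat.Agent.Jac Fermat.Agent.T1.Red68
open Fermat.Agent.T1.Centres94.OfModel

section Model

variable {R K F : Type*} [CommRing R] [Field K] [Field F] [Algebra R K] [Algebra K F]
  [Algebra R F] [IsScalarTower R K F]
variable {π : R} {t : F} {B0 B1 : Subalgebra R F} {Ov : ValuationSubring F}

/-- (T5) `π` is a prime element of the chart `↥B0`. -/
theorem prime_pi0 (M : TwoChartModel R K F π t B0 B1 Ov) : Prime (algebraMap R ↥B0 π) :=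
  (Ideal.span_singleton_prime (chart0 M).piB_ne_zero).mp (chart0 M).isPrime_span_pi

/-- (T5) `π` is a prime element of the chart `↥B1`. -/
theorem prime_pi1 (M : TwoChartModel R K F π t B0 B1 Ov) : Prime (algebraMap R ↥B1 π) :=
  (Ideal.span_singleton_prime (chart1 M).piB_ne_zero).mp (chart1 M).isPrime_span_pi

/-- (T4) `π ≠ 0` in the overlap ring. -/
theorem pi01_ne_zero (M : TwoChartModel R K F π t B0 B1 Ov) :
    algebraMap R ↥(B0 ⊔ B1) π ≠ 0 := by
  intro e
  apply M.pi_ne
  have := congrArg (fun b : ↥(B0 ⊔ B1) => (b : F)) e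
  simpa using this

/-- (T6) `π` is not a unit of the overlap ring. -/
theorem not_isUnit_pi01 (M : TwoChartModel R K F π t B0 B1 Ov) :
    ¬ IsUnit (algebraMap R ↥(B0 ⊔ B1) π) := by
  intro hu
  obtain ⟨c, hc⟩ := hu.exists_right_inv
  apply M.pi_nonunit
  have hcF : algebraMap R F π * (c : F) = 1 := by
    have := congrArg (fun b : ↥(B0 ⊔ B1) => (b : F)) hc
    simpa using this
  have : (algebraMap R F π)⁻¹ = (c : F) := (eq_inv_of_mul_eq_one_right hcF).symm
  rw [this]
  exact ModelCoh30.sup_le_Ov M _ c.2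

end Model

section Hub

universe u

variable {R F : Type u} {K : Type*} [CommRing R] [Field K] [Field F] [Algebra R K] [Algebra K F]
  [Algebra R F] [IsScalarTower R K F]
variable {π : R} {t : F} {B0 B1 : Subalgebra R F} {Ov : ValuationSubring F}

/-- (T4-T6 over the base itself) `PiGood` for any two-chart structure on the hub rings
`(↥B0, ↥B1, ↥(B0 ⊔ B1))`. -/
theorem piGood_hub (M : TwoChartModel R K F π t B0 B1 Ov)
    [Algebra ↥B0 ↥(B0 ⊔ B1)] [Algebra ↥B1 ↥(B0 ⊔ B1)]
    [IsScalarTower R ↥B0 ↥(B0 ⊔ B1)] [IsScalarTower R ↥B1 ↥(B0 ⊔ B1)]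
    (c : TwoChart R ↥B0 ↥B1 ↥(B0 ⊔ B1)) : PiGood c π :=
  piGood_of_isDomain c π (prime_pi0 M) (prime_pi1 M) (pi01_ne_zero M) (not_isUnit_pi01 M)

end Hub

section BaseChange

universe u

open Fermat.Agent.Jac.BaseChange75
open scoped Fermat.Agent.Jac.BaseChange75

variable {W O : Type u} [CommRing W] [CommRing O] [Algebra W O]
  {B0 B1 B01 : Type u} [CommRing B0] [CommRing B1] [CommRing B01]
  [Algebra W B0] [Algebra W B1] [Algebra W B01] [Algebra B0 B01] [Algebra B1 B01]
  [IsScalarTower W B0 B01] [IsScalarTower W B1 B01]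
  {L : Type*} {F' : Type*} [Field L] [Field F'] [Algebra O L] [Algebra L F'] [Algebra O F']
  [IsScalarTower O L F']
  {π' : O} {t' : F'} {B0' B1' : Subalgebra O F'} {Ov' : ValuationSubring F'}

/-- transport of regularity along an `O`-algebra isomorphism onto a domain -/
theorem regular_of_equiv {C D : Type*} [CommRing C] [CommRing D] [Algebra O C] [Algebra O D]
    [IsDomain D] (e : C ≃ₐ[O] D) {p : O} (hp : algebraMap O D p ≠ 0) (x : C)
    (hx : algebraMap O C p * x = 0) : x = 0 := by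
  have h1 : algebraMap O D p * e x = 0 := by
    rw [← e.commutes, ← map_mul, hx, map_zero]
  have h2 : e x = 0 := (mul_eq_zero.1 h1).resolve_left hp
  exact (map_eq_zero_iff e e.injective).1 h2

/-- transport of primality along an `O`-algebra isomorphism -/
theorem prime_of_equiv {C D : Type*} [CommRing C] [CommRing D] [Algebra O C] [Algebra O D]
    (e : C ≃ₐ[O] D) {p : O} (hp : Prime (algebraMap O D p)) : Prime (algebraMap O C p) := by
  have h := (MulEquiv.prime_iff (e : C ≃* D) (p := algebraMap O C p)).1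
  apply h
  have : (e : C ≃* D) (algebraMap O C p) = algebraMap O D p := e.commutes p
  rw [this]
  exact hp

/-- **(T4-T6)** `PiGood` for the base change `c0.baseChange O` of the hub, from the two-chart model
over `O` and `O`-algebra isomorphisms of the three base-changed rings with the charts of that
model (helper51's `ModelBC51.ModelEquiv.equiv0/equiv1/equiv01`). -/
theorem piGood_of_equiv (c0 : TwoChart W B0 B1 B01)
    (M' : TwoChartModel O L F' π' t' B0' B1' Ov')
    (e0 : (O ⊗[W] B0) ≃ₐ[O] ↥B0') (e1 : (O ⊗[W] B1) ≃ₐ[O] ↥B1')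
    (e01 : (O ⊗[W] B01) ≃ₐ[O] ↥(B0' ⊔ B1')) : PiGood (c0.baseChange O) π' where
  reg0 := regular_of_equiv e0 (prime_pi0 M').ne_zero
  reg1 := regular_of_equiv e1 (prime_pi1 M').ne_zero
  reg01 := regular_of_equiv e01 (pi01_ne_zero M')
  prime0 := prime_of_equiv e0 (prime_pi0 M')
  prime1 := prime_of_equiv e1 (prime_pi1 M')
  notUnit01 := fun hu => not_isUnit_pi01 M' (by
    have := hu.map e01
    rwa [e01.commutes] at this)

end BaseChange



section Integral

variable {R K F : Type*} [CommRing R] [Field K] [Field F] [Algebra R K] [Algebra K F]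
  [Algebra R F] [IsScalarTower R K F]

/-- Integrality over `R[τ] ⊆ F` of an element of a subalgebra `B ∋ τ`, restated inside `B`. -/
theorem isIntegral_adjoin_subtype {B : Subalgebra R F} {τ : F} (hτ : τ ∈ B) (b : ↥B)
    (hb : IsIntegral (Algebra.adjoin R {τ}) (b : F)) :
    IsIntegral (Algebra.adjoin R {(⟨τ, hτ⟩ : ↥B)}) b := by
  -- the subalgebra `S` of `B` and its image `S'` in `F`
  set S : Subalgebra R ↥B := Algebra.adjoin R {(⟨τ, hτ⟩ : ↥B)} with hS
  have hmap : S.map B.val = Algebra.adjoin R {τ} := by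
    rw [hS, AlgHom.map_adjoin, Set.image_singleton]
    rfl
  -- a ring hom `R[τ] → S`
  have hmem : ∀ y : ↥(Algebra.adjoin R {τ}), ∃ z : ↥S, ((z : ↥B) : F) = (y : F) := by
    intro y
    have hy : (y : F) ∈ S.map B.val := by rw [hmap]; exact y.2
    obtain ⟨z, hz, hzy⟩ := hy
    exact ⟨⟨z, hz⟩, hzy⟩
  choose φ hφ using hmem
  have hinj : ∀ a c : ↥B, (a : F) = (c : F) → a = c := fun a c h => Subtype.ext h
  let ψ : ↥(Algebra.adjoin R {τ}) →+* ↥S :=
    { toFun := φ
      map_one' := Subtype.ext (hinj _ _ (by rw [hφ]; rfl))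
      map_mul' := fun x y => Subtype.ext (hinj _ _ (by
        change ((φ (x * y) : ↥B) : F) = (((φ x * φ y : ↥S) : ↥B) : F)
        rw [hφ]; push_cast; rw [hφ, hφ]))
      map_zero' := Subtype.ext (hinj _ _ (by rw [hφ]; rfl))
      map_add' := fun x y => Subtype.ext (hinj _ _ (by
        change ((φ (x + y) : ↥B) : F) = (((φ x + φ y : ↥S) : ↥B) : F)
        rw [hφ]; push_cast; rw [hφ, hφ])) }
  obtain ⟨p, hp, hpb⟩ := hb
  refine ⟨p.map ψ, hp.map ψ, ?_⟩
  apply hinj
  change B.val.toRingHom (Polynomial.eval₂ (algebraMap ↥S ↥B) b (p.map ψ)) = ((0 : ↥B) : F)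
  rw [Polynomial.hom_eval₂, Polynomial.eval₂_map]
  have hcomp : (B.val.toRingHom.comp (algebraMap ↥S ↥B)).comp ψ
      = algebraMap ↥(Algebra.adjoin R {τ}) F := by
    ext y
    exact hφ y
  rw [hcomp]
  exact hpb

variable {π : R} {t : F} {B0 B1 : Subalgebra R F} {Ov : ValuationSubring F}

/-- (T7) every element of the chart `↥B0` is integral over `R[t] ⊆ ↥B0`
(the shape of `Ext23.Surj`, `c0.t = ⟨t, M.t_mem⟩`). -/
theorem hint0 (M : TwoChartModel R K F π t B0 B1 Ov) (b : ↥B0) :
    IsIntegral (Algebra.adjoin R {(⟨t, M.t_mem⟩ : ↥B0)}) b :=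
  isIntegral_adjoin_subtype M.t_mem b (M.int0 _ b.2)

/-- (T7) every element of the chart `↥B1` is integral over `R[t⁻¹] ⊆ ↥B1`
(the shape of `Ext23.Surj`, `c0.s = ⟨t⁻¹, M.tinv_mem⟩`). -/
theorem hint1 (M : TwoChartModel R K F π t B0 B1 Ov) (b : ↥B1) :
    IsIntegral (Algebra.adjoin R {(⟨t⁻¹, M.tinv_mem⟩ : ↥B1)}) b :=
  isIntegral_adjoin_subtype M.tinv_mem b (M.int1 _ b.2)

end Integral

end Fermat.Agent.T1.ModelFacts85
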