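/-
Fermat/Agent/T1/ModelFacts85/PiGoodBC.lean (helper85) -- programme T1A (S19), brick G2-X
MODEL-FACTS: `Red68.PiGood (c0.baseChange R') π'` for the hub `c0` of a two-chart model over `R`
and a two-chart model over `R'` related by helper51's base change datum
(`ModelBC51.ModelEquiv.equiv0/equiv1/equiv01`).
-/
import Mathlib
import Fermat.Agent.T1.ModelFacts85.PiGood
import Fermat.Agent.T1.ModelBC51.ModelEquiv

set_option autoImplicit false
set_option linter.unusedSectionVars false

open TensorProduct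

namespace Fermat.Agent.T1.ModelFacts85

open Fermat.Agent.RED.CORE.CoreIface24 Fermat.Agent.Jac Fermat.Agent.T1.Red68
open Fermat.Agent.T1.ModelBC51.Abstract Fermat.Agent.T1.ModelBC51.ModelEquiv
open Fermat.Agent.Jac.BaseChange75
open scoped Fermat.Agent.Jac.BaseChange75

universe u

variable {R F R' : Type u} {K L F' : Type*} [CommRing R] [Field K] [Field F] [Algebra R K]
  [Algebra K F] [Algebra R F] [IsScalarTower R K F]
  [CommRing R'] [Field L] [Field F'] [Algebra R' L] [Algebra L F'] [Algebra R' F']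
  [IsScalarTower R' L F']
  {π : R} {π' : R'} {Ov : ValuationSubring F} {Ov' : ValuationSubring F'}
  {t : F} {B0 B1 : Subalgebra R F} {B0' B1' : Subalgebra R' F'}

/-- **(T4-T6) for the hub**: `PiGood (c0.baseChange R') π'`, where `c0` is any two-chart structure
on the charts `(↥B0, ↥B1, ↥(B0 ⊔ B1))` of the model over `R` and `R'` carries a model related to it
by a base change datum `D`. -/
theorem piGood_baseChange (D : BCData K L π π' Ov Ov') [Algebra R R']
    (halg : ∀ r : R, algebraMap R R' r = D.iR r)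
    (hK : TwoChartModel R K F π t B0 B1 Ov)
    (hL : TwoChartModel R' L F' π' (D.iF t) B0' B1' Ov') [CharZero K]
    [Algebra ↥B0 ↥(B0 ⊔ B1)] [Algebra ↥B1 ↥(B0 ⊔ B1)]
    [IsScalarTower R ↥B0 ↥(B0 ⊔ B1)] [IsScalarTower R ↥B1 ↥(B0 ⊔ B1)]
    (c0 : TwoChart R ↥B0 ↥B1 ↥(B0 ⊔ B1)) : PiGood (c0.baseChange R') π' :=
  piGood_of_equiv c0 hL (equiv0 D halg hK hL) (equiv1 D halg hK hL) (equiv01 D halg hK hL)

end Fermat.Agent.T1.ModelFacts85
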